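/-
Program A (S29 + S42), leaf "residue-field-valued eigen-homomorphism" (helper97).

From a nonzero parabolic complex eigen-homomorphism `xC : Γ₀(N) → ℂ` (leaf T1: the period class of
a normalised eigenform) and a maximal ideal `𝔪` of `ℤ̄`: a nonzero parabolic homomorphism
`ψ : Γ₀(N) → ℤ̄ ⧸ 𝔪`, killing the elements of finite order, with `T_ℓ ψ = (a_ℓ mod 𝔪) ψ` for every
prime `ℓ`.  Also: the eigenvalues `a_ℓ` are algebraic integers; the `𝔽_p`-coordinate form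
(`λ ∘ ψ` for additive `λ : ℤ̄ ⧸ 𝔪 → 𝔽_p`); the kernel of a ring homomorphism from `ℤ̄` to a field of
positive characteristic is maximal.

Method: as in `S41/H97/RedInt.lean` (Nakayama on the `ℤ̄`-span of the values), with a
`ℤ̄ ⧸ 𝔪`-linear functional on `Λ' ⧸ 𝔪 Λ'`.
-/
import Mathlib
import Fermat.Agent.S41.H97.RedInt
import Fermat.Agent.S41.H16.EigenHom

set_option autoImplicit false

open CongruenceSubgroup ModularCurve ModularCurve.Period
open scoped MatrixGroups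

namespace Fermat.Agent.S29.H97

open Fermat.Agent.S16.H75 (heckeHom heckeHom_comp)
open Fermat.Agent.S41.H97 (Zb spanZb mem_spanZb spanZb_fg exists_notMem_smul)

/-! ### Linear algebra -/

/-- A nonzero vector is detected by a linear functional. -/
theorem exists_linear_apply_ne_zero (K : Type*) {V : Type*} [Field K] [AddCommGroup V]
    [Module K V] (v : V) (hv : v ≠ 0) : ∃ f : V →ₗ[K] K, f v ≠ 0 := by
  by_contra h
  have h' : ∀ f : Module.Dual K V, f v = 0 := by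
    intro f
    by_contra hf
    exact h ⟨f, hf⟩
  exact hv ((Module.forall_dual_apply_eq_zero_iff K v).mp h')

/-- On a module killed by a maximal ideal `I`, a nonzero vector is detected by an additive
functional with values in `R ⧸ I` which turns the action of `R` into multiplication. -/
theorem exists_quotient_functional {R : Type*} [CommRing R] (I : Ideal R) [hI : I.IsMaximal]
    {Q : Type*} [AddCommGroup Q] [Module R Q] (hQ : ∀ a ∈ I, ∀ x : Q, a • x = 0) (x₀ : Q)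
    (hx₀ : x₀ ≠ 0) :
    ∃ f : Q →+ R ⧸ I, f x₀ ≠ 0 ∧ ∀ (c : R) (x : Q), f (c • x) = Ideal.Quotient.mk I c * f x := by
  have hM : Module.IsTorsionBySet R Q (I : Set R) := fun x a => hQ a.1 a.2 x
  let _instField : Field (R ⧸ I) := Ideal.Quotient.field I
  let _instModule : Module (R ⧸ I) Q := hM.module
  obtain ⟨f, hf⟩ := exists_linear_apply_ne_zero (R ⧸ I) x₀ hx₀
  refine ⟨f.toAddMonoidHom, hf, fun c x => ?_⟩
  have h1 : c • x = (Ideal.Quotient.mk I c : R ⧸ I) • x :=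
    (Module.IsTorsionBySet.mk_smul hM c x).symm
  show f (c • x) = Ideal.Quotient.mk I c * f x
  rw [h1, map_smul, smul_eq_mul]

/-- A homomorphism to `ℂ` kills the elements of finite order. -/
theorem complex_hom_apply_eq_zero_of_isOfFinOrder {Γ : Type*} [Group Γ] (x : Additive Γ →+ ℂ)
    (γ : Γ) (hγ : IsOfFinOrder γ) : x (Additive.ofMul γ) = 0 := by
  obtain ⟨n, hn, hγn⟩ := isOfFinOrder_iff_pow_eq_one.mp hγ
  have h1 : n • x (Additive.ofMul γ) = 0 := by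
    rw [← map_nsmul, ← ofMul_pow, hγn, ofMul_one, map_zero]
  rcases smul_eq_zero.mp h1 with h | h
  · exact absurd h hn.ne'
  · exact h

section Core

variable {N : ℕ} [NeZero N]

/-- A `ℤ̄ ⧸ 𝔪`-valued additive functional on a `ℤ̄`-submodule `Λ'` of `ℂ`, nonzero at a given
`v ∉ 𝔪 Λ'`, turning the action of `ℤ̄` into multiplication by the residue class. -/
theorem exists_res_functional (𝔪 : Ideal Zb) [𝔪.IsMaximal] (Λ' : Submodule Zb ℂ) (v : Λ')
    (hv : (v : ℂ) ∉ 𝔪 • Λ') :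
    ∃ Ψ : Λ' →+ Zb ⧸ 𝔪, Ψ v ≠ 0 ∧
      ∀ (c : Zb) (w : Λ'), Ψ (c • w) = Ideal.Quotient.mk 𝔪 c * Ψ w := by
  classical
  let M : Submodule Zb Λ' := (𝔪 • Λ').comap Λ'.subtype
  have hM : ∀ (c : Zb), c ∈ 𝔪 → ∀ w : Λ', c • w ∈ M := by
    intro c hc w
    show ((c • w : Λ') : ℂ) ∈ 𝔪 • Λ'
    exact Submodule.smul_mem_smul hc w.2
  have hkill : ∀ a ∈ 𝔪, ∀ q : Λ' ⧸ M, a • q = 0 := by
    intro a ha q
    obtain ⟨w, rfl⟩ := Submodule.mkQ_surjective M q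
    rw [← map_smul, Submodule.mkQ_apply, Submodule.Quotient.mk_eq_zero]
    exact hM a ha w
  have hv' : M.mkQ v ≠ 0 := by
    rw [Ne, Submodule.mkQ_apply, Submodule.Quotient.mk_eq_zero]
    exact hv
  obtain ⟨f, hf, hfc⟩ := exists_quotient_functional 𝔪 hkill (M.mkQ v) hv'
  refine ⟨f.comp M.mkQ.toAddMonoidHom, hf, ?_⟩
  intro c w
  show f (M.mkQ (c • w)) = Ideal.Quotient.mk 𝔪 c * f (M.mkQ w)
  rw [map_smul, hfc]

/-- **Integrality of Hecke eigenvalues** (Betti proof): an eigenvalue of `T_ℓ` on a nonzero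
homomorphism `Γ₀(N) → ℂ` is an algebraic integer. -/
theorem isIntegral_of_eigenHom (xC : Additive (Gamma0 N) →+ ℂ) (hx0 : xC ≠ 0) (ℓ : Nat.Primes)
    (a : ℂ) (heig : heckeHom N ℓ ℂ xC = a • xC) : IsIntegral ℤ a := by
  have hfg : Group.FG (Gamma0 N) := Fermat.Agent.S22.H75.fg_Gamma0 N
  have hΛfg : AddGroup.FG xC.range := AddGroup.fg_range xC
  -- the range as a `ℤ`-submodule of `ℂ`
  let Λ : Submodule ℤ ℂ := xC.range.toIntSubmodule
  have hΛ : Λ.FG := by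
    have h1 : Module.Finite ℤ xC.range := Module.Finite.iff_addGroup_fg.mpr hΛfg
    have h2 : Module.Finite ℤ Λ := h1
    exact Module.Finite.iff_fg.mp h2
  have hne : Λ ≠ ⊥ := by
    intro hbot
    apply hx0
    refine AddMonoidHom.ext fun g => ?_
    have hmem : xC g ∈ Λ := ⟨g, rfl⟩
    rw [hbot] at hmem
    exact (Submodule.mem_bot ℤ).mp hmem
  refine isIntegral_of_smul_mem_submodule Λ hne hΛ a ?_
  rintro _ ⟨g, rfl⟩
  -- `a * xC g` is a value of `heckeHom` of the corestriction, hence in the range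
  have h1 := heckeHom_comp N ℓ (xC.range.subtype) xC.rangeRestrict
  have h2 : (xC.range.subtype).comp xC.rangeRestrict = xC := AddMonoidHom.ext fun _ => rfl
  rw [h2, heig] at h1
  have h3 := DFunLike.congr_fun h1 g
  have h4 : a • xC g = ((heckeHom N ℓ xC.range xC.rangeRestrict g : xC.range) : ℂ) := h3
  rw [h4]
  exact (heckeHom N ℓ xC.range xC.rangeRestrict g).2

/-- **The residual eigen-homomorphism.**  From a nonzero parabolic complex eigen-homomorphism and a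
maximal ideal `𝔪` of `ℤ̄`: a nonzero parabolic `ψ : Γ₀(N) → ℤ̄ ⧸ 𝔪`, killing the elements of
finite order, with `T_ℓ ψ = (b mod 𝔪) ψ` for every prime `ℓ` and every `b ∈ ℤ̄` equal to the complex
eigenvalue. -/
theorem exists_res_eigenHom (𝔪 : Ideal Zb) [h𝔪 : 𝔪.IsMaximal] (xC : Additive (Gamma0 N) →+ ℂ)
    (hx0 : xC ≠ 0) (hpar : IsParabolicHom (Gamma0 N) xC) (a : Nat.Primes → ℂ)
    (heig : ∀ ℓ : Nat.Primes, heckeHom N ℓ ℂ xC = a ℓ • xC) :
    ∃ ψ : Additive (Gamma0 N) →+ Zb ⧸ 𝔪, ψ ≠ 0 ∧ IsParabolicHom (Gamma0 N) ψ ∧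
      (∀ γ : Gamma0 N, IsOfFinOrder γ → ψ (Additive.ofMul γ) = 0) ∧
      ∀ (ℓ : Nat.Primes) (b : Zb), (b : ℂ) = a ℓ →
        ∀ g, heckeHom N ℓ (Zb ⧸ 𝔪) ψ g = Ideal.Quotient.mk 𝔪 b * ψ g := by
  classical
  obtain ⟨γ0, hγ0⟩ := exists_notMem_smul 𝔪 h𝔪.ne_top xC hx0
  let xL' : Additive (Gamma0 N) →+ spanZb xC := xC.codRestrict (spanZb xC) (mem_spanZb xC)
  obtain ⟨Ψ, hΨv, hΨ⟩ := exists_res_functional 𝔪 (spanZb xC) (xL' (Additive.ofMul γ0)) hγ0
  refine ⟨Ψ.comp xL', ?_, ?_, ?_, ?_⟩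
  · intro h0
    exact hΨv (DFunLike.congr_fun h0 (Additive.ofMul γ0))
  · intro γ hγ
    have h0 : xL' (Additive.ofMul γ) = 0 := Subtype.ext (hpar γ hγ)
    rw [AddMonoidHom.comp_apply, h0, map_zero]
  · intro γ hγ
    have h0 : xL' (Additive.ofMul γ) = 0 :=
      Subtype.ext (complex_hom_apply_eq_zero_of_isOfFinOrder xC γ hγ)
    rw [AddMonoidHom.comp_apply, h0, map_zero]
  · intro ℓ b hb g
    have h1 := heckeHom_comp N ℓ ((spanZb xC).subtype.toAddMonoidHom) xL'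
    have h2 : ((spanZb xC).subtype.toAddMonoidHom).comp xL' = xC := AddMonoidHom.ext fun _ => rfl
    rw [h2, heig ℓ] at h1
    have h3 := DFunLike.congr_fun h1 g
    have h4 : heckeHom N ℓ (spanZb xC) xL' g = b • xL' g := by
      apply Subtype.ext
      have h5 : a ℓ * xC g = ((heckeHom N ℓ (spanZb xC) xL' g : spanZb xC) : ℂ) := h3
      rw [← h5, ← hb]
      rfl
    rw [heckeHom_comp N ℓ Ψ xL', AddMonoidHom.comp_apply, h4, hΨ]
    rfl

end Core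

/-! ### From a normalised eigenform -/

/-- The Hecke eigenvalues `a_ℓ(f)` of a normalised eigenform are algebraic integers. -/
theorem isIntegral_qCoeff {N : ℕ} [NeZero N] (f : CuspForm (Gamma0 N) 2)
    (hf : f.IsNormalizedEigenform) (ℓ : Nat.Primes) :
    IsIntegral ℤ (ModularFormClass.qCoeff f (ℓ : ℕ)) := by
  obtain ⟨xC, -, hx0, heig⟩ := Fermat.Agent.S41.H16.exists_eigenHom_of_eigenform N f hf
  exact isIntegral_of_eigenHom xC hx0 ℓ _ (heig ℓ)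

/-- **Leaf: the residual eigen-homomorphism of a normalised eigenform.**  For a normalised
eigenform `f` of level `N` and a maximal ideal `𝔪` of `ℤ̄`: a nonzero parabolic
`ψ : Γ₀(N) → ℤ̄ ⧸ 𝔪`, killing the elements of finite order, with
`T_ℓ ψ = (a_ℓ(f) mod 𝔪) ψ` for EVERY prime `ℓ`. -/
theorem exists_res_eigenHom_of_eigenform {N : ℕ} [NeZero N] (f : CuspForm (Gamma0 N) 2)
    (hf : f.IsNormalizedEigenform) (𝔪 : Ideal (integralClosure ℤ ℂ)) [𝔪.IsMaximal] :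
    ∃ ψ : Additive (Gamma0 N) →+ integralClosure ℤ ℂ ⧸ 𝔪, ψ ≠ 0 ∧
      IsParabolicHom (Gamma0 N) ψ ∧
      (∀ γ : Gamma0 N, IsOfFinOrder γ → ψ (Additive.ofMul γ) = 0) ∧
      ∀ ℓ : Nat.Primes, ∃ b : integralClosure ℤ ℂ, (b : ℂ) = ModularFormClass.qCoeff f (ℓ : ℕ) ∧
        ∀ g, heckeHom N ℓ (integralClosure ℤ ℂ ⧸ 𝔪) ψ g = Ideal.Quotient.mk 𝔪 b * ψ g := by
  obtain ⟨xC, hxpar, hx0, heig⟩ := Fermat.Agent.S41.H16.exists_eigenHom_of_eigenform N f hf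
  obtain ⟨ψ, hψ0, hψpar, hψell, hψ⟩ := exists_res_eigenHom 𝔪 xC hx0 hxpar
    (fun ℓ => ModularFormClass.qCoeff f (ℓ : ℕ)) heig
  refine ⟨ψ, hψ0, hψpar, hψell, fun ℓ => ?_⟩
  exact ⟨⟨_, isIntegral_of_eigenHom xC hx0 ℓ _ (heig ℓ)⟩, rfl, hψ ℓ _ rfl⟩

/-! ### The `𝔽_p`-coordinate form -/

/-- Every element of `ℤ̄ ⧸ 𝔪` is killed by `p` when `p ∈ 𝔪`. -/
theorem nsmul_quotient_eq_zero (p : ℕ) (𝔪 : Ideal Zb) (hp𝔪 : (p : Zb) ∈ 𝔪) (x : Zb ⧸ 𝔪) :
    p • x = 0 := by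
  have h0 : ((p : Zb ⧸ 𝔪)) = 0 := by
    have h1 : (Ideal.Quotient.mk 𝔪 (p : Zb)) = 0 := Ideal.Quotient.eq_zero_iff_mem.mpr hp𝔪
    rw [← h1, map_natCast]
  rw [nsmul_eq_mul, h0, zero_mul]

/-- The additive functionals `ℤ̄ ⧸ 𝔪 → 𝔽_p` separate the points (`p ∈ 𝔪`). -/
theorem exists_addHom_apply_ne_zero (p : ℕ) [Fact p.Prime] (𝔪 : Ideal Zb)
    (hp𝔪 : (p : Zb) ∈ 𝔪) (x : Zb ⧸ 𝔪) (hx : x ≠ 0) : ∃ lam : Zb ⧸ 𝔪 →+ ZMod p, lam x ≠ 0 := by
  let _inst : Module (ZMod p) (Zb ⧸ 𝔪) :=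
    AddCommGroup.zmodModule (nsmul_quotient_eq_zero p 𝔪 hp𝔪)
  exact Fermat.Agent.S41.H97.exists_addHom_ne_zero p x hx

/-- **Leaf, `𝔽_p`-coordinate form.**  For a normalised eigenform `f` of level `N`, a prime `p` and
a maximal ideal `𝔪 ∋ p` of `ℤ̄`: a homomorphism `ψ : Γ₀(N) → ℤ̄ ⧸ 𝔪` and residues `abar ℓ` of the
eigenvalues `a_ℓ(f)` such that for EVERY additive `lam : ℤ̄ ⧸ 𝔪 → 𝔽_p` the coordinate
`lam ∘ ψ : Γ₀(N) → 𝔽_p` is parabolic, kills the elements of finite order and satisfies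
`T_ℓ (lam ∘ ψ) = (lam ∘ (abar ℓ * ·)) ∘ ψ` for every prime `ℓ`; and some coordinate is nonzero. -/
theorem exists_res_eigenHom_coord {N : ℕ} [NeZero N] (p : ℕ) [Fact p.Prime]
    (f : CuspForm (Gamma0 N) 2) (hf : f.IsNormalizedEigenform)
    (𝔪 : Ideal (integralClosure ℤ ℂ)) [𝔪.IsMaximal] (hp𝔪 : (p : integralClosure ℤ ℂ) ∈ 𝔪) :
    ∃ (ψ : Additive (Gamma0 N) →+ integralClosure ℤ ℂ ⧸ 𝔪)
      (abar : Nat.Primes → integralClosure ℤ ℂ ⧸ 𝔪),
      (∀ ℓ : Nat.Primes, ∃ b : integralClosure ℤ ℂ,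
        (b : ℂ) = ModularFormClass.qCoeff f (ℓ : ℕ) ∧ abar ℓ = Ideal.Quotient.mk 𝔪 b) ∧
      (∃ lam : integralClosure ℤ ℂ ⧸ 𝔪 →+ ZMod p, lam.comp ψ ≠ 0) ∧
      ∀ lam : integralClosure ℤ ℂ ⧸ 𝔪 →+ ZMod p,
        IsParabolicHom (Gamma0 N) (lam.comp ψ) ∧
        (∀ γ : Gamma0 N, IsOfFinOrder γ → lam.comp ψ (Additive.ofMul γ) = 0) ∧
        ∀ ℓ : Nat.Primes, heckeHom N ℓ (ZMod p) (lam.comp ψ) =
          (lam.comp (AddMonoidHom.mulLeft (abar ℓ))).comp ψ := by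
  classical
  obtain ⟨ψ, hψ0, hψpar, hψell, hψ⟩ := exists_res_eigenHom_of_eigenform f hf 𝔪
  choose b hb hbψ using hψ
  refine ⟨ψ, fun ℓ => Ideal.Quotient.mk 𝔪 (b ℓ), fun ℓ => ⟨b ℓ, hb ℓ, rfl⟩, ?_, ?_⟩
  · obtain ⟨g, hg⟩ : ∃ g, ψ g ≠ 0 := by
      by_contra hcon
      apply hψ0
      refine AddMonoidHom.ext fun g => ?_
      by_contra hg
      exact hcon ⟨g, hg⟩
    obtain ⟨lam, hlam⟩ := exists_addHom_apply_ne_zero p 𝔪 hp𝔪 (ψ g) hg
    exact ⟨lam, fun h0 => hlam (DFunLike.congr_fun h0 g)⟩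
  · intro lam
    refine ⟨fun γ hγ => ?_, fun γ hγ => ?_, fun ℓ => ?_⟩
    · rw [AddMonoidHom.comp_apply, hψpar γ hγ, map_zero]
    · rw [AddMonoidHom.comp_apply, hψell γ hγ, map_zero]
    · rw [heckeHom_comp N ℓ lam ψ]
      refine AddMonoidHom.ext fun g => ?_
      show lam (heckeHom N ℓ _ ψ g) = lam (Ideal.Quotient.mk 𝔪 (b ℓ) * ψ g)
      rw [hbψ ℓ g]

/-! ### The residue field `ℤ̄ ⧸ 𝔪` -/

/-- The kernel of a ring homomorphism from `ℤ̄` to a field of characteristic `p > 0` is a maximal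
ideal. -/
theorem ker_isMaximal_of_charP {k : Type*} [Field k] (p : ℕ) [Fact p.Prime] [CharP k p]
    (φ : integralClosure ℤ ℂ →+* k) : (RingHom.ker φ).IsMaximal := by
  have hprime : (RingHom.ker φ).IsPrime := RingHom.ker_isPrime φ
  have hp : (p : Zb) ∈ RingHom.ker φ := by
    rw [RingHom.mem_ker, map_natCast]
    exact CharP.cast_eq_zero k p
  have hchar : CharP (Zb ⧸ RingHom.ker φ) p := by
    rw [CharP.charP_iff_prime_eq_zero (Fact.out : p.Prime)]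
    have h1 : (Ideal.Quotient.mk (RingHom.ker φ) (p : Zb)) = 0 :=
      Ideal.Quotient.eq_zero_iff_mem.mpr hp
    rw [← h1, map_natCast]
  let _alg : Algebra (ZMod p) (Zb ⧸ RingHom.ker φ) := ZMod.algebra _ p
  have hint : Algebra.IsIntegral (ZMod p) (Zb ⧸ RingHom.ker φ) := by
    refine ⟨fun x => ?_⟩
    obtain ⟨y, rfl⟩ := Ideal.Quotient.mk_surjective x
    have hy : IsIntegral ℤ y := Algebra.IsIntegral.isIntegral y
    have hy' : IsIntegral ℤ (Ideal.Quotient.mk (RingHom.ker φ) y) :=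
      hy.map (Ideal.Quotient.mkₐ ℤ (RingHom.ker φ))
    exact hy'.tower_top
  exact Ideal.Quotient.maximal_of_isField _
    (isField_of_isIntegral_of_isField' (R := ZMod p) (Field.toIsField (ZMod p)))

/-- `ℤ̄ ⧸ 𝔪` is algebraically closed. -/
theorem isAlgClosed_quotient (𝔪 : Ideal (integralClosure ℤ ℂ)) [𝔪.IsMaximal] :
    letI := Ideal.Quotient.field 𝔪
    IsAlgClosed (integralClosure ℤ ℂ ⧸ 𝔪) := by
  let _instField : Field (Zb ⧸ 𝔪) := Ideal.Quotient.field 𝔪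
  refine IsAlgClosed.of_exists_root _ fun P hP hirr => ?_
  obtain ⟨Q, hQmap, hQdeg, hQmonic⟩ := Polynomial.lifts_and_natDegree_eq_and_monic
    ((Polynomial.mem_lifts P).mpr (Polynomial.map_surjective _ Ideal.Quotient.mk_surjective P)) hP
  have hdeg : (Q.map (algebraMap Zb ℂ)).degree ≠ 0 := by
    rw [Polynomial.degree_map_eq_of_injective (FaithfulSMul.algebraMap_injective Zb ℂ)]
    intro h0
    have h1 : Q.natDegree = 0 := Polynomial.natDegree_eq_zero_iff_degree_le_zero.mpr h0.le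
    rw [hQdeg] at h1
    exact Polynomial.not_irreducible_C _
      ((Polynomial.eq_C_of_natDegree_eq_zero h1) ▸ hirr)
  obtain ⟨z, hz⟩ := IsAlgClosed.exists_root (Q.map (algebraMap Zb ℂ)) hdeg
  have hz' : Polynomial.eval₂ (algebraMap Zb ℂ) z Q = 0 := by
    rw [← Polynomial.eval_map]; exact hz
  have hzint : IsIntegral Zb z := ⟨Q, hQmonic, hz'⟩
  have hzintZ : IsIntegral ℤ z := isIntegral_trans z hzint
  refine ⟨Ideal.Quotient.mk 𝔪 ⟨z, hzintZ⟩, ?_⟩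
  have h1 : Polynomial.eval (⟨z, hzintZ⟩ : Zb) Q = 0 := by
    apply Subtype.ext
    have h2 : ((Polynomial.eval (⟨z, hzintZ⟩ : Zb) Q : Zb) : ℂ) =
        Polynomial.eval₂ (algebraMap Zb ℂ) z Q := by
      have h3 := Polynomial.hom_eval₂ Q (RingHom.id Zb) (algebraMap Zb ℂ) (⟨z, hzintZ⟩ : Zb)
      rw [RingHom.comp_id, Polynomial.eval₂_id] at h3
      exact h3
    rw [h2, hz']
    rfl
  rw [← hQmap, Polynomial.eval_map, Polynomial.eval₂_at_apply, h1, map_zero]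

end Fermat.Agent.S29.H97
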