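/-
Program A (S29 + S42), leaf (EIG) in the exact shape of the consumer top (helper14, coord row
1911): the residual eigen-homomorphism of a normalised eigenform, with the eigen-equation as an
equality of homomorphisms.  Adapter over `EigenRes.lean` (helper97).
-/
import Mathlib
import Fermat.Agent.S29.H97.EigenRes

set_option autoImplicit false

open CongruenceSubgroup ModularCurve ModularCurve.Period
open scoped MatrixGroups

namespace Fermat.Agent.S29.H97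

open Fermat.Agent.S16.H75 (heckeHom)

/-- **Leaf (EIG).**  For a normalised eigenform `g` of level `N` and a maximal ideal `𝔪` of
`ℤ̄`: a nonzero parabolic `ψ : Γ₀(N) → ℤ̄ ⧸ 𝔪` with `T_ℓ ψ = (a_ℓ(g) mod 𝔪) • ψ` for every prime
`ℓ` (in particular the `a_ℓ(g)` are algebraic integers). -/
theorem eig {N : ℕ} [NeZero N] (g : CuspForm (Gamma0 N) 2) (hg : g.IsNormalizedEigenform)
    (𝔪 : Ideal (integralClosure ℤ ℂ)) (h𝔪 : 𝔪.IsMaximal) :
    ∃ ψ : Additive (Gamma0 N) →+ (integralClosure ℤ ℂ ⧸ 𝔪), ψ ≠ 0 ∧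
      IsParabolicHom (Gamma0 N) ψ ∧
      ∀ ℓ : Nat.Primes, ∃ a : integralClosure ℤ ℂ, (a : ℂ) = ModularFormClass.qCoeff g ℓ ∧
        heckeHom N ℓ (integralClosure ℤ ℂ ⧸ 𝔪) ψ = (Ideal.Quotient.mk 𝔪 a) • ψ := by
  obtain ⟨ψ, hψ0, hψpar, -, hψ⟩ := exists_res_eigenHom_of_eigenform g hg 𝔪
  refine ⟨ψ, hψ0, hψpar, fun ℓ => ?_⟩
  obtain ⟨a, ha, hψa⟩ := hψ ℓ
  exact ⟨a, ha, AddMonoidHom.ext fun x => hψa x⟩

/-- **Leaf (EIG), with the torsion clause** (needed for `p = 2, 3`): as `eig`, and `ψ` kills the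
elements of finite order. -/
theorem eig_tors {N : ℕ} [NeZero N] (g : CuspForm (Gamma0 N) 2) (hg : g.IsNormalizedEigenform)
    (𝔪 : Ideal (integralClosure ℤ ℂ)) (h𝔪 : 𝔪.IsMaximal) :
    ∃ ψ : Additive (Gamma0 N) →+ (integralClosure ℤ ℂ ⧸ 𝔪), ψ ≠ 0 ∧
      IsParabolicHom (Gamma0 N) ψ ∧
      (∀ γ : Gamma0 N, IsOfFinOrder γ → ψ (Additive.ofMul γ) = 0) ∧
      ∀ ℓ : Nat.Primes, ∃ a : integralClosure ℤ ℂ, (a : ℂ) = ModularFormClass.qCoeff g ℓ ∧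
        heckeHom N ℓ (integralClosure ℤ ℂ ⧸ 𝔪) ψ = (Ideal.Quotient.mk 𝔪 a) • ψ := by
  obtain ⟨ψ, hψ0, hψpar, hψell, hψ⟩ := exists_res_eigenHom_of_eigenform g hg 𝔪
  refine ⟨ψ, hψ0, hψpar, hψell, fun ℓ => ?_⟩
  obtain ⟨a, ha, hψa⟩ := hψ ℓ
  exact ⟨a, ha, AddMonoidHom.ext fun x => hψa x⟩

end Fermat.Agent.S29.H97
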