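/-
Program A (S42 / S29), consumer side, leaf (MOD-ABS) (helper97; statement fixed by helper14).

`exists_module_of_hom`: from an additive "Hom-model" vector `m0 : (κ →+ ZMod p) →+ J` which is a
simultaneous eigenvector of commuting-with-Galois operators `T i` (in the sense
`T i (m0 lam) = m0 (lam ∘ (abar i * ·))`) and has a finite `Γ`-orbit, produce a nonzero
finite-dimensional `κ`-representation `W` of `Γ` on which
* every `σ` fixing the orbit pointwise acts trivially, and
* every `σ` satisfying the quadratic relation `σ² - T i σ + n = 0` on the orbit satisfies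
  `r σ * r σ - abar i • r σ + n • 1 = 0`.

The model: `HomMod p κ J = (κ →+ ZMod p) →+ J` is a `κ`-vector space through
`(c • m) lam = m (lam ∘ (c * ·))`, the group acts `κ`-linearly by `(σ • m) lam = σ • m lam`, and
`W` is the `κ`-span of the orbit of `m0`.  Mathlib only.
-/
import Mathlib

set_option autoImplicit false

noncomputable section

namespace Fermat.Agent.S29.H97

/-- The Hom model `(κ →+ ZMod p) →+ J`, as a type synonym carrying a `κ`-module structure. -/
def HomMod (p : ℕ) (κ J : Type) [Field κ] [AddCommGroup J] : Type :=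
  (κ →+ ZMod p) →+ J

namespace HomMod

variable {p : ℕ} {κ J : Type} [Field κ] [AddCommGroup J]

instance : AddCommGroup (HomMod p κ J) :=
  inferInstanceAs (AddCommGroup ((κ →+ ZMod p) →+ J))

/-- Evaluation of an element of the Hom model. -/
def ev (m : HomMod p κ J) (lam : κ →+ ZMod p) : J :=
  (show (κ →+ ZMod p) →+ J from m) lam

/-- Build an element of the Hom model. -/
def of (m : (κ →+ ZMod p) →+ J) : HomMod p κ J := m

@[simp] theorem ev_of (m : (κ →+ ZMod p) →+ J) (lam : κ →+ ZMod p) : ev (of m) lam = m lam := rfl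

theorem ext {m m' : HomMod p κ J} (h : ∀ lam, ev m lam = ev m' lam) : m = m' :=
  AddMonoidHom.ext (f := (show (κ →+ ZMod p) →+ J from m)) (g := m') h

@[simp] theorem ev_zero (lam : κ →+ ZMod p) : ev (0 : HomMod p κ J) lam = 0 := rfl

@[simp] theorem ev_add (m m' : HomMod p κ J) (lam : κ →+ ZMod p) :
    ev (m + m') lam = ev m lam + ev m' lam := rfl

@[simp] theorem ev_neg (m : HomMod p κ J) (lam : κ →+ ZMod p) :
    ev (-m) lam = -ev m lam := rfl

@[simp] theorem ev_sub (m m' : HomMod p κ J) (lam : κ →+ ZMod p) :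
    ev (m - m') lam = ev m lam - ev m' lam := rfl

theorem ev_map_add (m : HomMod p κ J) (lam lam' : κ →+ ZMod p) :
    ev m (lam + lam') = ev m lam + ev m lam' :=
  map_add (show (κ →+ ZMod p) →+ J from m) lam lam'

theorem ev_map_zero (m : HomMod p κ J) : ev m 0 = 0 :=
  map_zero (show (κ →+ ZMod p) →+ J from m)

theorem ev_map_nsmul (m : HomMod p κ J) (n : ℕ) (lam : κ →+ ZMod p) :
    ev m (n • lam) = n • ev m lam :=
  map_nsmul (show (κ →+ ZMod p) →+ J from m) n lam

/-- Precomposition with multiplication by `c`, as an endomorphism of `κ →+ ZMod p`. -/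
def twist (c : κ) : (κ →+ ZMod p) →+ (κ →+ ZMod p) where
  toFun lam := lam.comp (AddMonoidHom.mulLeft c)
  map_zero' := rfl
  map_add' _ _ := rfl

@[simp] theorem twist_apply (c : κ) (lam : κ →+ ZMod p) (x : κ) :
    twist c lam x = lam (c * x) := rfl

theorem twist_eq (c : κ) (lam : κ →+ ZMod p) :
    twist c lam = lam.comp (AddMonoidHom.mulLeft c) := rfl

instance : SMul κ (HomMod p κ J) where
  smul c m := of ((show (κ →+ ZMod p) →+ J from m).comp (twist c))

theorem ev_smul (c : κ) (m : HomMod p κ J) (lam : κ →+ ZMod p) :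
    ev (c • m) lam = ev m (lam.comp (AddMonoidHom.mulLeft c)) := rfl

instance : Module κ (HomMod p κ J) where
  one_smul m := by
    refine ext fun lam => ?_
    rw [ev_smul]
    congr 1
    ext x
    simp
  mul_smul c d m := by
    refine ext fun lam => ?_
    rw [ev_smul, ev_smul, ev_smul]
    congr 1
    ext x
    simp [mul_left_comm, mul_assoc, mul_comm c d]
  smul_zero c := by
    refine ext fun lam => ?_
    rw [ev_smul]
    rfl
  smul_add c m m' := by
    refine ext fun lam => ?_
    rw [ev_smul, ev_add, ev_add, ev_smul, ev_smul]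
  add_smul c d m := by
    refine ext fun lam => ?_
    rw [ev_smul, ev_add, ev_smul, ev_smul, ← ev_map_add]
    congr 1
    ext x
    simp [add_mul]
  zero_smul m := by
    refine ext fun lam => ?_
    rw [ev_smul, ev_zero]
    have : lam.comp (AddMonoidHom.mulLeft (0 : κ)) = 0 := by
      ext x
      simp
    rw [this, ev_map_zero]

theorem ev_natCast_smul (n : ℕ) (m : HomMod p κ J) (lam : κ →+ ZMod p) :
    ev ((n : κ) • m) lam = n • ev m lam := by
  rw [ev_smul, ← ev_map_nsmul]
  congr 1
  ext x
  show lam ((n : κ) * x) = (n • lam) x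
  rw [← nsmul_eq_mul, map_nsmul]
  rfl

variable {Γ : Type} [Group Γ] [DistribMulAction Γ J]

/-- The action of `σ` on the Hom model, as a `κ`-linear endomorphism. -/
def act (σ : Γ) : HomMod p κ J →ₗ[κ] HomMod p κ J where
  toFun m := of ((DistribSMul.toAddMonoidHom J σ).comp (show (κ →+ ZMod p) →+ J from m))
  map_add' _ _ := by
    refine ext fun lam => ?_
    simp only [ev_of, ev_add]
    exact smul_add σ _ _
  map_smul' _ _ := rfl

theorem ev_act (σ : Γ) (m : HomMod p κ J) (lam : κ →+ ZMod p) :
    ev (act σ m) lam = σ • ev m lam := rfl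

theorem act_one : act (1 : Γ) = (1 : Module.End κ (HomMod p κ J)) := by
  refine LinearMap.ext fun m => ext fun lam => ?_
  rw [ev_act, one_smul]
  rfl

theorem act_mul (σ τ : Γ) :
    act (σ * τ) = (act σ * act τ : Module.End κ (HomMod p κ J)) := by
  refine LinearMap.ext fun m => ext fun lam => ?_
  rw [ev_act, mul_smul]
  rfl

end HomMod

open HomMod in
/-- **MOD-ABS** (statement fixed by helper14, #1992 (3)). -/
theorem exists_module_of_hom {p : ℕ} {κ : Type} [Field κ] {Γ : Type} [Group Γ] {J : Type}
    [AddCommGroup J] [DistribMulAction Γ J] {ι : Type}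
    (T : ι → J →+ J) (hT : ∀ (i : ι) (σ : Γ) (x : J), T i (σ • x) = σ • T i x) (abar : ι → κ)
    (m0 : (κ →+ ZMod p) →+ J) (hm0 : m0 ≠ 0)
    (heig : ∀ (i : ι) (lam : κ →+ ZMod p),
      T i (m0 lam) = m0 (lam.comp (AddMonoidHom.mulLeft (abar i))))
    (hfin : (Set.range fun σ : Γ => fun lam : κ →+ ZMod p => σ • m0 lam).Finite) :
    ∃ (W : Type) (_ : AddCommGroup W) (_ : Module κ W) (r : Γ →* Module.End κ W),
      Nontrivial W ∧ Module.Finite κ W ∧
      (∀ σ : Γ, (∀ (τ : Γ) (lam : κ →+ ZMod p), σ • τ • m0 lam = τ • m0 lam) → r σ = 1) ∧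
      ∀ (σ : Γ) (i : ι) (n : ℕ),
        (∀ (τ : Γ) (lam : κ →+ ZMod p),
          σ • σ • τ • m0 lam - T i (σ • τ • m0 lam) + n • τ • m0 lam = 0) →
        r σ * r σ - abar i • r σ + (n : κ) • (1 : Module.End κ W) = 0 := by
  classical
  -- the orbit of `m0` in the Hom model
  set M0 : HomMod p κ J := of m0 with hM0
  set O : Set (HomMod p κ J) := Set.range fun σ : Γ => act σ M0 with hO
  have hOfin : O.Finite := by
    have hinj : Function.Injective (fun m : HomMod p κ J => fun lam : κ →+ ZMod p => ev m lam) :=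
      fun m m' h => ext fun lam => congrFun h lam
    have himg : (fun m : HomMod p κ J => fun lam : κ →+ ZMod p => ev m lam) '' O
        = Set.range fun σ : Γ => fun lam : κ →+ ZMod p => σ • m0 lam := by
      rw [hO, ← Set.range_comp]
      rfl
    exact Set.Finite.of_finite_image (himg ▸ hfin) hinj.injOn
  set W : Submodule κ (HomMod p κ J) := Submodule.span κ O with hW
  have hstab : ∀ σ : Γ, ∀ w ∈ W, act σ w ∈ W := by
    intro σ w hw
    have hle : W ≤ W.comap (act σ) := by
      rw [hW]
      refine Submodule.span_le.mpr ?_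
      rintro _ ⟨τ, rfl⟩
      rw [SetLike.mem_coe, Submodule.mem_comap]
      refine Submodule.subset_span ⟨σ * τ, ?_⟩
      show act (σ * τ) M0 = act σ (act τ M0)
      rw [act_mul]
      rfl
    exact hle hw
  -- the restricted representation
  let r : Γ →* Module.End κ W :=
    { toFun := fun σ => (act σ).restrict (hstab σ)
      map_one' := by
        refine LinearMap.ext fun w => Subtype.ext ?_
        rw [LinearMap.coe_restrict_apply, act_one]
        rfl
      map_mul' := fun σ τ => by
        refine LinearMap.ext fun w => Subtype.ext ?_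
        rw [LinearMap.coe_restrict_apply, act_mul]
        rfl }
  have hr : ∀ (σ : Γ) (w : W), ((r σ w : W) : HomMod p κ J) = act σ (w : HomMod p κ J) :=
    fun σ w => rfl
  -- a linear endomorphism of the model killing the orbit kills `W`
  have hker : ∀ Φ : HomMod p κ J →ₗ[κ] HomMod p κ J, (∀ τ : Γ, Φ (act τ M0) = 0) →
      ∀ w ∈ W, Φ w = 0 := by
    intro Φ hΦ w hw
    have hle : W ≤ LinearMap.ker Φ := by
      rw [hW]
      refine Submodule.span_le.mpr ?_
      rintro _ ⟨τ, rfl⟩
      exact hΦ τ
    exact hle hw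
  have hM0mem : M0 ∈ W := by
    refine Submodule.subset_span ⟨1, ?_⟩
    show act (1 : Γ) M0 = M0
    rw [act_one]
    rfl
  refine ⟨W, inferInstance, inferInstance, r, ?_, ?_, ?_, ?_⟩
  · -- nontrivial
    refine ⟨⟨⟨M0, hM0mem⟩, 0, fun h => hm0 ?_⟩⟩
    have h0 : M0 = 0 := congrArg Subtype.val h
    exact h0
  · -- finite-dimensional
    exact FiniteDimensional.span_of_finite κ hOfin
  · -- trivial action of the pointwise stabiliser of the orbit
    intro σ hσ
    refine LinearMap.ext fun w => Subtype.ext ?_
    rw [hr]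
    have := hker (act σ - LinearMap.id) (fun τ => ?_) w w.2
    · rw [LinearMap.sub_apply, LinearMap.id_apply, sub_eq_zero] at this
      exact this
    · rw [LinearMap.sub_apply, LinearMap.id_apply, sub_eq_zero]
      refine ext fun lam => ?_
      rw [ev_act, ev_act]
      exact hσ τ lam
  · -- the quadratic relation
    intro σ i n hσ
    refine LinearMap.ext fun w => Subtype.ext ?_
    have := hker (act σ ∘ₗ act σ - abar i • act σ + (n : κ) • LinearMap.id) (fun τ => ?_) w w.2
    · exact this
    · refine ext fun lam => ?_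
      simp only [LinearMap.add_apply, LinearMap.sub_apply, LinearMap.comp_apply,
        LinearMap.smul_apply, LinearMap.id_apply, ev_add, ev_sub, ev_zero]
      rw [ev_natCast_smul, ev_smul, ev_act, ev_act, ev_act, ev_act, ev_act]
      have h1 : ev M0 (lam.comp (AddMonoidHom.mulLeft (abar i))) = T i (m0 lam) :=
        (heig i lam).symm
      have h2 : ev M0 lam = m0 lam := rfl
      rw [h1, h2, ← hT, ← hT]
      exact hσ τ lam

end Fermat.Agent.S29.H97
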