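/-
Program A (S29 + S42), consumer side, leaf (RHO) (helper97; shapes of helper54's #1921).

`ModuleStatement N p κ a` : a nonzero finite-dimensional `κ`-representation `W` of
`Gal(ℚ̄/ℚ)`, factoring through a finite level, on which every Frobenius element at a prime
`ℓ ∤ N p` satisfies `σ² - a_ℓ σ + ℓ = 0` and every inertia group at such a prime acts trivially.

`exists_residualGaloisRep_of_moduleStatement` (RHO): over an algebraically closed field `κ` of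
characteristic `p`, a `ModuleStatement` yields a `ResidualGaloisRep κ` (2-dimensional) with
Frobenius characteristic polynomials `X² - a_ℓ X + ℓ` and unramified at all `ℓ ∤ N p`.

Inputs (all landed): the mod `p` cyclotomic character `H54.eps`, ALLQUAD
`H39.isQuad_of_isFrobeniusAt`, lemma (D) over an algebraically closed field
`H14.exists_rep_two'`.
-/
import Mathlib
import Fermat.Prelude.Def_GaloisRep_Residual
import Fermat.Agent.S29.H54.Cyc
import Fermat.Agent.S29.H39.QuadQbar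
import Fermat.Agent.S42.H14.Quad

set_option autoImplicit false

open Polynomial

noncomputable section

namespace Fermat.Agent.S29.H97

local notation "Qbar" => AlgebraicClosure ℚ
local notation "Γ" => (AlgebraicClosure ℚ ≃ₐ[ℚ] AlgebraicClosure ℚ)

/-- The interface between the module side (AJ, eigen-homomorphism, S37 core, orbits) and the
representation side of Program A (helper54, #1921 sec. 1). -/
def ModuleStatement (N p : ℕ) (κ : Type) [Field κ] (a : ℕ → κ) : Prop :=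
  ∃ (W : Type) (_ : AddCommGroup W) (_ : Module κ W) (r : Γ →* Module.End κ W),
    Nontrivial W ∧ Module.Finite κ W ∧ GaloisFactorsThroughFiniteLevel r ∧
    (∀ ℓ : ℕ, ℓ.Prime → ¬ ℓ ∣ N * p → ∀ A : ValuationSubring Qbar, A.LiesOverPrime ℓ →
      ∀ σ : Γ, A.IsFrobeniusAt σ ℓ →
        r σ * r σ - a ℓ • r σ + (ℓ : κ) • (1 : Module.End κ W) = 0) ∧
    (∀ ℓ : ℕ, ℓ.Prime → ¬ ℓ ∣ N * p → ∀ A : ValuationSubring Qbar, A.LiesOverPrime ℓ →
      ∀ σ ∈ A.inertiaSubgroupIn ℚ, r σ = 1)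

/-- The trivial two-dimensional residual representation. -/
def trivialResidualGaloisRep (k : Type) [Field k] : ResidualGaloisRep k where
  V := Fin 2 → k
  finrank_eq := by rw [Module.finrank_fin_fun]
  ρ := 1
  factorsThroughFiniteLevel :=
    ⟨⊥, inferInstance, fun _ _ => rfl⟩

theorem trivialResidualGaloisRep_isUnramifiedAt (k : Type) [Field k] (q : ℕ) :
    (trivialResidualGaloisRep k).IsUnramifiedAt q :=
  fun _ _ _ _ => rfl

/-- The residual representation attached to a homomorphism to `2 × 2` matrices which is trivial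
on the common kernel of two homomorphisms factoring through finite levels. -/
def residualGaloisRepOfMatrix {κ : Type} [Field κ] (ρ' : Γ →* Matrix (Fin 2) (Fin 2) κ)
    (h : GaloisFactorsThroughFiniteLevel ρ') : ResidualGaloisRep κ where
  V := Fin 2 → κ
  finrank_eq := by rw [Module.finrank_fin_fun]
  ρ := ((Matrix.toLinAlgEquiv' : Matrix (Fin 2) (Fin 2) κ ≃ₐ[κ] Module.End κ (Fin 2 → κ)) :
      Matrix (Fin 2) (Fin 2) κ →* Module.End κ (Fin 2 → κ)).comp ρ'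
  factorsThroughFiniteLevel := by
    obtain ⟨L, hL, h1⟩ := h
    refine ⟨L, hL, fun σ hσ => ?_⟩
    rw [MonoidHom.comp_apply, h1 σ hσ, map_one]

theorem residualGaloisRepOfMatrix_charpoly {κ : Type} [Field κ]
    (ρ' : Γ →* Matrix (Fin 2) (Fin 2) κ) (h : GaloisFactorsThroughFiniteLevel ρ') (σ : Γ) :
    LinearMap.charpoly ((residualGaloisRepOfMatrix ρ' h).ρ σ) = (ρ' σ).charpoly := by
  change LinearMap.charpoly (Matrix.toLin' (ρ' σ)) = (ρ' σ).charpoly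
  exact Matrix.charpoly_toLin' _

theorem residualGaloisRepOfMatrix_eq_one {κ : Type} [Field κ]
    (ρ' : Γ →* Matrix (Fin 2) (Fin 2) κ) (h : GaloisFactorsThroughFiniteLevel ρ') (σ : Γ)
    (hσ : ρ' σ = 1) : (residualGaloisRepOfMatrix ρ' h).ρ σ = 1 := by
  change Matrix.toLin' (ρ' σ) = (1 : Module.End κ (Fin 2 → κ))
  rw [hσ, Matrix.toLin'_one]
  rfl

/-- Two homomorphisms factoring through finite levels factor through a common finite level. -/
theorem exists_common_level {M₁ M₂ : Type} [MulOneClass M₁] [MulOneClass M₂]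
    {r₁ : Γ →* M₁} {r₂ : Γ →* M₂} (h₁ : GaloisFactorsThroughFiniteLevel r₁)
    (h₂ : GaloisFactorsThroughFiniteLevel r₂) :
    ∃ L : IntermediateField ℚ Qbar, FiniteDimensional ℚ L ∧
      ∀ σ : Γ, (∀ x ∈ L, σ x = x) → r₁ σ = 1 ∧ r₂ σ = 1 := by
  obtain ⟨L₁, hL₁, h1⟩ := h₁
  obtain ⟨L₂, hL₂, h2⟩ := h₂
  refine ⟨L₁ ⊔ L₂, IntermediateField.finiteDimensional_sup L₁ L₂, fun σ hσ => ⟨?_, ?_⟩⟩
  · exact h1 σ fun x hx => hσ x ((le_sup_left : L₁ ≤ L₁ ⊔ L₂) hx)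
  · exact h2 σ fun x hx => hσ x ((le_sup_right : L₂ ≤ L₁ ⊔ L₂) hx)

/-- **(RHO), explicit form.** -/
theorem exists_residualGaloisRep_of_module (N p : ℕ) (hp : p.Prime) (κ : Type) [Field κ]
    [IsAlgClosed κ] [CharP κ p] (a : ℕ → κ)
    (W : Type) [AddCommGroup W] [Module κ W] [Nontrivial W] [Module.Finite κ W]
    (r : Γ →* Module.End κ W) (hlev : GaloisFactorsThroughFiniteLevel r)
    (hfrob : ∀ ℓ : ℕ, ℓ.Prime → ¬ ℓ ∣ N * p → ∀ A : ValuationSubring Qbar, A.LiesOverPrime ℓ →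
      ∀ σ : Γ, A.IsFrobeniusAt σ ℓ →
        r σ * r σ - a ℓ • r σ + (ℓ : κ) • (1 : Module.End κ W) = 0)
    (hin : ∀ ℓ : ℕ, ℓ.Prime → ¬ ℓ ∣ N * p → ∀ A : ValuationSubring Qbar, A.LiesOverPrime ℓ →
      ∀ σ ∈ A.inertiaSubgroupIn ℚ, r σ = 1) :
    ∃ ρ : ResidualGaloisRep κ,
      (∀ ℓ : ℕ, ℓ.Prime → ¬ ℓ ∣ N * p → ∀ A : ValuationSubring Qbar, A.LiesOverPrime ℓ →
        ∀ σ : Γ, A.IsFrobeniusAt σ ℓ →
          LinearMap.charpoly (ρ.ρ σ) = X ^ 2 - C (a ℓ) * X + C ((ℓ : κ))) ∧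
      (∀ ℓ : ℕ, ℓ.Prime → ¬ ℓ ∣ N * p → ρ.IsUnramifiedAt ℓ) := by
  classical
  have : Fact p.Prime := ⟨hp⟩
  by_cases hN : N * p = 0
  · -- vacuous case: every prime divides `N * p = 0`
    refine ⟨trivialResidualGaloisRep κ, fun ℓ _ hℓ => ?_, fun ℓ _ hℓ => ?_⟩
    · exact absurd (hN ▸ dvd_zero ℓ) hℓ
    · exact absurd (hN ▸ dvd_zero ℓ) hℓ
  -- the cyclotomic character
  set ε : Γ →* κˣ := Fermat.Agent.S29.H54.eps p κ with hε
  have hεlev : GaloisFactorsThroughFiniteLevel ε :=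
    Fermat.Agent.S29.H54.eps_factorsThroughFiniteLevel p κ
  have hℓp : ∀ ℓ : ℕ, ¬ ℓ ∣ N * p → ℓ ≠ p := by
    rintro ℓ hℓ rfl
    exact hℓ (dvd_mul_left _ _)
  -- Frobenius elements outside the primes of `N p` are quadratic
  have hquadF : ∀ ℓ : ℕ, ℓ.Prime → ℓ ∉ (N * p).primeFactors →
      ∀ A : ValuationSubring Qbar, A.LiesOverPrime ℓ → ∀ σ : Γ, A.IsFrobeniusAt σ ℓ →
        Fermat.Agent.S29.H39.IsQuad r ε σ := by
    intro ℓ hℓ hℓS A hA σ hσ
    have hℓN : ¬ ℓ ∣ N * p := fun hdvd => hℓS (Nat.mem_primeFactors.mpr ⟨hℓ, hdvd, hN⟩)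
    refine ⟨a ℓ, ?_⟩
    rw [Fermat.Agent.S29.H54.eps_of_isFrobeniusAt A hℓ hA (hℓp ℓ hℓN) hσ]
    exact hfrob ℓ hℓ hℓN A hA σ hσ
  have hall : ∀ g : Γ, Fermat.Agent.S29.H39.IsQuad r ε g :=
    Fermat.Agent.S29.H39.isQuad_of_isFrobeniusAt r ε hlev hεlev _ hquadF
  obtain ⟨ρ', hchar, hone⟩ := Fermat.Agent.S42.H14.exists_rep_two' r ε hall
  have hρ'lev : GaloisFactorsThroughFiniteLevel ρ' := by
    obtain ⟨L, hL, h⟩ := exists_common_level hlev hεlev
    exact ⟨L, hL, fun σ hσ => hone σ (h σ hσ).1 (h σ hσ).2⟩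
  refine ⟨residualGaloisRepOfMatrix ρ' hρ'lev, fun ℓ hℓ hℓN A hA σ hσ => ?_,
    fun ℓ hℓ hℓN A hA σ hσ => ?_⟩
  · rw [residualGaloisRepOfMatrix_charpoly]
    have h1 := hfrob ℓ hℓ hℓN A hA σ hσ
    have h2 : ((ε σ : κˣ) : κ) = (ℓ : κ) :=
      Fermat.Agent.S29.H54.eps_of_isFrobeniusAt A hℓ hA (hℓp ℓ hℓN) hσ
    rw [← h2] at h1 ⊢
    exact hchar σ (a ℓ) h1
  · exact residualGaloisRepOfMatrix_eq_one ρ' hρ'lev σ
      (hone σ (hin ℓ hℓ hℓN A hA σ hσ)
        (Fermat.Agent.S29.H54.eps_of_mem_inertia A hℓ hA (hℓp ℓ hℓN) hσ))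

/-- **(RHO)** in the `ModuleStatement` form of #1921. -/
theorem exists_residualGaloisRep_of_moduleStatement (N p : ℕ) (hp : p.Prime) (κ : Type)
    [Field κ] [IsAlgClosed κ] [CharP κ p] (a : ℕ → κ) (h : ModuleStatement N p κ a) :
    ∃ ρ : ResidualGaloisRep κ,
      (∀ ℓ : ℕ, ℓ.Prime → ¬ ℓ ∣ N * p → ∀ A : ValuationSubring Qbar, A.LiesOverPrime ℓ →
        ∀ σ : Γ, A.IsFrobeniusAt σ ℓ →
          LinearMap.charpoly (ρ.ρ σ) = X ^ 2 - C (a ℓ) * X + C ((ℓ : κ))) ∧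
      (∀ ℓ : ℕ, ℓ.Prime → ¬ ℓ ∣ N * p → ρ.IsUnramifiedAt ℓ) := by
  obtain ⟨W, _, _, r, hnt, hfin, hlev, hfrob, hin⟩ := h
  exact exists_residualGaloisRep_of_module N p hp κ a W r hlev hfrob hin

end Fermat.Agent.S29.H97
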