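/-
Program A (S29 + S42), consumer side: the top step (TOP29) (helper97; shapes of #1921 / #1992).

`TopHyp` : for every level `N ≥ 1`, normalised eigenform `g`, prime `p` and maximal ideal `𝔪 ∋ p`
of `ℤ̄`, integral lifts `a ℓ` of the eigenvalues `a_ℓ(g)` (`ℓ ∤ N p`) and a `ModuleStatement`
over `ℤ̄ ⧸ 𝔪` with the reduced eigenvalues.

`s29_of_topHyp` : `TopHyp` implies the conclusion of the frozen statement S29, verbatim
(`𝔪 := ker φ`; base change `ℤ̄ ⧸ ker φ → k`; the level `N = 0` is vacuous).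
-/
import Mathlib
import Fermat.Prelude.Def_GaloisRep_Residual
import Fermat.Agent.S29.H97.Rho
import Fermat.Agent.S29.H97.EigenRes

set_option autoImplicit false
set_option linter.style.haveILetI false

open Polynomial CongruenceSubgroup

noncomputable section

namespace Fermat.Agent.S29.H97

local notation "Qbar" => AlgebraicClosure ℚ
local notation "Γ" => (AlgebraicClosure ℚ ≃ₐ[ℚ] AlgebraicClosure ℚ)

/-! ### Base change of residual representations -/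

theorem baseChangeAlong_charpoly {k k' : Type} [Field k] [Field k'] (φ : k →+* k')
    (ρ : ResidualGaloisRep k) (σ : Γ) :
    LinearMap.charpoly ((ρ.baseChangeAlong φ).ρ σ) = (LinearMap.charpoly (ρ.ρ σ)).map φ := by
  letI : Algebra k k' := φ.toAlgebra
  change LinearMap.charpoly ((ρ.ρ σ).baseChange k') = _
  rw [LinearMap.charpoly_baseChange]
  rfl

theorem baseChangeAlong_eq_one {k k' : Type} [Field k] [Field k'] (φ : k →+* k')
    (ρ : ResidualGaloisRep k) (σ : Γ) (h : ρ.ρ σ = 1) : (ρ.baseChangeAlong φ).ρ σ = 1 := by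
  letI : Algebra k k' := φ.toAlgebra
  change (ρ.ρ σ).baseChange k' = 1
  rw [h, LinearMap.baseChange_one]

theorem baseChangeAlong_isUnramifiedAt {k k' : Type} [Field k] [Field k'] (φ : k →+* k')
    (ρ : ResidualGaloisRep k) (q : ℕ) (h : ρ.IsUnramifiedAt q) :
    (ρ.baseChangeAlong φ).IsUnramifiedAt q :=
  fun A hA σ hσ => baseChangeAlong_eq_one φ ρ σ (h A hA σ hσ)

/-! ### The residue field `ℤ̄ ⧸ 𝔪` -/

theorem charP_quotient_of_mem (𝔪 : Ideal (integralClosure ℤ ℂ)) [𝔪.IsMaximal] {p : ℕ}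
    (hp : p.Prime) (hp𝔪 : (p : integralClosure ℤ ℂ) ∈ 𝔪) :
    letI := Ideal.Quotient.field 𝔪
    CharP (integralClosure ℤ ℂ ⧸ 𝔪) p := by
  letI := Ideal.Quotient.field 𝔪
  rw [CharP.charP_iff_prime_eq_zero hp]
  have h1 : (Ideal.Quotient.mk 𝔪 (p : integralClosure ℤ ℂ)) = 0 :=
    Ideal.Quotient.eq_zero_iff_mem.mpr hp𝔪
  rw [← h1, map_natCast]

/-! ### The top hypothesis and the frozen S29 -/

/-- The hypothesis of the top steps (TOP29)/(TOP42) at one `(N, g, p, 𝔪)`: integral lifts of the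
eigenvalues and a `ModuleStatement` over `ℤ̄ ⧸ 𝔪`. -/
def TopHypAt (N : ℕ) (g : CuspForm (Gamma0 N) 2) (p : ℕ)
    (𝔪 : Ideal (integralClosure ℤ ℂ)) [𝔪.IsMaximal] : Prop :=
  letI := Ideal.Quotient.field 𝔪
  ∃ a : ℕ → integralClosure ℤ ℂ,
    (∀ ℓ : ℕ, ℓ.Prime → ¬ ℓ ∣ N * p → (a ℓ : ℂ) = ModularFormClass.qCoeff g ℓ) ∧
    ModuleStatement N p (integralClosure ℤ ℂ ⧸ 𝔪) (fun ℓ => Ideal.Quotient.mk 𝔪 (a ℓ))

/-- The hypothesis of the top steps for all data (helper14, #1992). -/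
def TopHyp : Prop :=
  ∀ (N : ℕ) [NeZero N] (g : CuspForm (Gamma0 N) 2), g.IsNormalizedEigenform →
    ∀ (p : ℕ), p.Prime → ∀ (𝔪 : Ideal (integralClosure ℤ ℂ)) [𝔪.IsMaximal],
      (p : integralClosure ℤ ℂ) ∈ 𝔪 → TopHypAt N g p 𝔪

/-- (RHO) at `(N, g, p, 𝔪)`: the residual representation over `ℤ̄ ⧸ 𝔪` with the Frobenius
characteristic polynomials of `g`. -/
theorem exists_residualGaloisRep_of_topHypAt {N : ℕ} {g : CuspForm (Gamma0 N) 2} {p : ℕ}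
    (hp : p.Prime) (𝔪 : Ideal (integralClosure ℤ ℂ)) [𝔪.IsMaximal]
    (hp𝔪 : (p : integralClosure ℤ ℂ) ∈ 𝔪) (H : TopHypAt N g p 𝔪) :
    letI := Ideal.Quotient.field 𝔪
    ∃ (a : ℕ → integralClosure ℤ ℂ) (ρ : ResidualGaloisRep (integralClosure ℤ ℂ ⧸ 𝔪)),
      (∀ ℓ : ℕ, ℓ.Prime → ¬ ℓ ∣ N * p → (a ℓ : ℂ) = ModularFormClass.qCoeff g ℓ) ∧
      (∀ ℓ : ℕ, ℓ.Prime → ¬ ℓ ∣ N * p → ∀ A : ValuationSubring Qbar, A.LiesOverPrime ℓ →
        ∀ σ : Γ, A.IsFrobeniusAt σ ℓ →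
          LinearMap.charpoly (ρ.ρ σ)
            = X ^ 2 - C (Ideal.Quotient.mk 𝔪 (a ℓ)) * X
              + C ((ℓ : integralClosure ℤ ℂ ⧸ 𝔪))) ∧
      (∀ ℓ : ℕ, ℓ.Prime → ¬ ℓ ∣ N * p → ρ.IsUnramifiedAt ℓ) := by
  letI := Ideal.Quotient.field 𝔪
  haveI : IsAlgClosed (integralClosure ℤ ℂ ⧸ 𝔪) := isAlgClosed_quotient 𝔪
  haveI : CharP (integralClosure ℤ ℂ ⧸ 𝔪) p := charP_quotient_of_mem 𝔪 hp hp𝔪
  obtain ⟨a, ha, hmod⟩ := H
  obtain ⟨ρ, hchar, hunr⟩ := exists_residualGaloisRep_of_moduleStatement N p hp _ _ hmod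
  exact ⟨a, ρ, ha, hchar, hunr⟩

/-- **(TOP29), local form**: the conclusion of the frozen S29 from the top hypothesis at
`𝔪 = ker φ` (needed only for `N ≠ 0`). -/
theorem s29_of_topHypAt {N : ℕ} {g : CuspForm (Gamma0 N) 2} {p : ℕ} (hp : p.Prime)
    {k : Type} [Field k] [CharP k p] (φ : integralClosure ℤ ℂ →+* k)
    (H : N ≠ 0 → ∀ _ : (RingHom.ker φ).IsMaximal, TopHypAt N g p (RingHom.ker φ)) :
    ∃ ρ : ResidualGaloisRep k, ρ.IsAttachedTo g φ ∧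
      ∀ ℓ : ℕ, ℓ.Prime → ¬ ℓ ∣ N * p → ρ.IsUnramifiedAt ℓ := by
  by_cases hN : N = 0
  · subst hN
    refine ⟨trivialResidualGaloisRep k, fun ℓ _ hℓN => absurd (dvd_zero ℓ) hℓN,
      fun ℓ _ hℓN => ?_⟩
    rw [zero_mul] at hℓN
    exact absurd (dvd_zero ℓ) hℓN
  haveI : Fact p.Prime := ⟨hp⟩
  haveI h𝔪 : (RingHom.ker φ).IsMaximal := ker_isMaximal_of_charP p φ
  have hp𝔪 : (p : integralClosure ℤ ℂ) ∈ RingHom.ker φ := by
    rw [RingHom.mem_ker, map_natCast]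
    exact CharP.cast_eq_zero k p
  letI := Ideal.Quotient.field (RingHom.ker φ)
  obtain ⟨a, ρ, ha, hchar, hunr⟩ :=
    exists_residualGaloisRep_of_topHypAt hp (RingHom.ker φ) hp𝔪 (H hN h𝔪)
  refine ⟨ρ.baseChangeAlong (RingHom.kerLift φ), ?_, fun ℓ hℓ hℓp =>
    baseChangeAlong_isUnramifiedAt _ ρ ℓ (hunr ℓ hℓ hℓp)⟩
  intro ℓ hℓ hℓN hℓk A hA σ hσ
  have hℓp : ¬ ℓ ∣ N * p := by
    intro hdvd
    rcases (Nat.Prime.dvd_mul hℓ).mp hdvd with h | h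
    · exact hℓN h
    · have hℓeq : ℓ = p := (Nat.prime_dvd_prime_iff_eq hℓ hp).mp h
      apply hℓk
      rw [hℓeq]
      exact CharP.cast_eq_zero k p
  refine ⟨a ℓ, ha ℓ hℓ hℓp, ?_⟩
  rw [baseChangeAlong_charpoly, hchar ℓ hℓ hℓp A hA σ hσ]
  simp only [Polynomial.map_add, Polynomial.map_sub, Polynomial.map_mul, Polynomial.map_pow,
    Polynomial.map_X, Polynomial.map_C, RingHom.kerLift_mk, map_natCast, Polynomial.map_natCast]

/-- **(TOP29)**: `TopHyp` implies the frozen statement S29 (all levels, all primes, all residue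
maps). -/
theorem s29_of_topHyp (H : TopHyp) {N : ℕ} {g : CuspForm (Gamma0 N) 2}
    (hg : g.IsNormalizedEigenform) {p : ℕ} (hp : p.Prime) {k : Type} [Field k] [CharP k p]
    (φ : integralClosure ℤ ℂ →+* k) :
    ∃ ρ : ResidualGaloisRep k, ρ.IsAttachedTo g φ ∧
      ∀ ℓ : ℕ, ℓ.Prime → ¬ ℓ ∣ N * p → ρ.IsUnramifiedAt ℓ := by
  refine s29_of_topHypAt hp φ fun hN h𝔪 => ?_
  haveI : NeZero N := ⟨hN⟩
  haveI := h𝔪
  refine H N g hg p hp (RingHom.ker φ) ?_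
  rw [RingHom.mem_ker, map_natCast]
  exact CharP.cast_eq_zero k p

end Fermat.Agent.S29.H97
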